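/-
GATE-P / S56 [SEL] leaf S56-SEL-BRIDGE-H1 (helper73), file 2: **function cocycles `G_ℚ → N` versus
`Hlc (levelS S) N 1`** (`N : Rep k G_ℚ` discrete for `levelS S`; generic in `N`, `k`, `S`).

Function shapes: helper1's `TWPrime.IsCocycle act c` (`c (σ τ) = c σ + act σ (c τ)`), helper11 /
helper66's "vanishes on the automorphisms fixing a finite extension `L`", the frozen inertia groups
`A.inertiaSubgroupIn ℚ`.

* `cocycle_iff_mem_cocycles₁` : `(∀ σ τ, c (σ τ) = c σ + σ (c τ)) ↔ c ∈ cocycles₁ N`;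
  `isCocycle_iff` (helper1's `IsCocycle N.ρ c` is this identity, `rfl`);
* `mem_lcCocycles₁_levelS` : a function cocycle vanishing on an open subgroup and on all inertia
  groups outside `S` is a level-constant cocycle for `levelS S`;
* `exists_level_of_mem_lcCocycles₁`, `eq_zero_of_mem_inertia` : the converse;
* `fnClass`, `fnClass_eq_zero_iff` (class `= 0 ⟺ c σ = σ x − x`), `fnClass_eq_iff`;
* `exists_cocycle_section` (any group / level system, `k` a field): a `k`-linear section
  `W →ₗ (G → M)` of `Hlc1π` over any subspace `W ≤ Hlc 𝒰 M 1`;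
* `exists_tw_section` : the same over `(G_ℚ, levelS S)` with the binders `hcz`, `hcl` of
  `TWPrime.exists_tw_primes`, plus vanishing on inertia outside `S`;
* `factorsThroughFiniteLevel_ρ` : `N.ρ` factors through a finite level (`N` finite-dimensional).
-/
import Mathlib
import Fermat.Agent.GC.C0.Level
import Fermat.Agent.GC.Prof.LowMap
import Fermat.Agent.GP.TW.TWPrime

set_option autoImplicit false

open CategoryTheory groupCohomology
open Fermat.Agent.GC.Prof Fermat.Agent.GC.C0 Fermat.Agent.GP.TW.TWPrime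

noncomputable section

namespace Fermat.Agent.GP.GW.BridgeH1

/-! ### generic: cocycle shapes, sections -/

section Generic

universe u

variable {k G : Type u} [CommRing k] [Group G] (M : Rep.{u} k G)

/-- the explicit cocycle identity `c (σ τ) = c σ + σ (c τ)` is Mathlib's `cocycles₁`. -/
theorem cocycle_iff_mem_cocycles₁ (c : G → M) :
    (∀ g h : G, c (g * h) = c g + M.ρ g (c h)) ↔ c ∈ cocycles₁ M := by
  rw [mem_cocycles₁_iff]
  constructor
  · intro h g g'
    rw [h g g', add_comm]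
  · intro h g g'
    rw [h g g', add_comm]

variable {M}

theorem cocycle_apply_one {c : G → M} (hc : c ∈ cocycles₁ M) : c 1 = 0 :=
  cocycles₁_map_one ⟨c, hc⟩

variable (𝒰 : LevelSystem G) [IsDiscrete 𝒰 M]

/-- A level-constant cocycle vanishes on a level. -/
theorem exists_level_eq_zero (z : lcCocycles₁ 𝒰 M) :
    ∃ U ∈ 𝒰.sets, (∀ s ∈ U, (z : G → M) s = 0) ∧ ∀ g s, s ∈ U → (z : G → M) (g * s) = z.1 g := by
  obtain ⟨U, hU, h⟩ := z.2.2
  refine ⟨U, hU, fun s hs => ?_, h⟩
  have := h 1 s hs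
  rw [one_mul] at this
  rw [this]
  exact cocycle_apply_one z.2.1

/-- the class of a level-constant cocycle vanishes iff it is a coboundary `σ ↦ σ x − x`. -/
theorem Hlc1π_eq_zero_iff_exists (z : lcCocycles₁ 𝒰 M) :
    Hlc1π 𝒰 M z = 0 ↔ ∃ x : M, ∀ g, (z : G → M) g = M.ρ g x - x := by
  rw [Hlc1π_eq_zero_iff, coboundaries₁, LinearMap.mem_range]
  constructor
  · rintro ⟨x, hx⟩
    refine ⟨x, fun g => ?_⟩
    rw [← hx, d₀₁_hom_apply]
  · rintro ⟨x, hx⟩
    refine ⟨x, ?_⟩
    funext g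
    rw [d₀₁_hom_apply, hx g]

/-- two level-constant cocycles have the same class iff they differ by a coboundary. -/
theorem Hlc1π_eq_iff_exists (z z' : lcCocycles₁ 𝒰 M) :
    Hlc1π 𝒰 M z = Hlc1π 𝒰 M z' ↔
      ∃ x : M, ∀ g, (z' : G → M) g = (z : G → M) g + (M.ρ g x - x) := by
  rw [← sub_eq_zero, ← map_sub, Hlc1π_eq_zero_iff_exists]
  constructor
  · rintro ⟨x, hx⟩
    refine ⟨-x, fun g => ?_⟩
    have := hx g
    rw [Submodule.coe_sub, Pi.sub_apply] at this
    rw [map_neg]
    rw [sub_eq_iff_eq_add] at this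
    rw [this]
    abel
  · rintro ⟨x, hx⟩
    refine ⟨-x, fun g => ?_⟩
    rw [Submodule.coe_sub, Pi.sub_apply, hx g, map_neg]
    abel

end Generic

section Section

universe u

variable {k G : Type u} [Field k] [Group G] (M : Rep.{u} k G) (𝒰 : LevelSystem G)
  [IsDiscrete 𝒰 M]

/-- **Cocycle section.** Over a field, the classes in any subspace `W ≤ Hlc 𝒰 M 1` are represented
by a `k`-linear family of level-constant function cocycles. -/
theorem exists_cocycle_section (W : Submodule k (Hlc 𝒰 M 1)) :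
    ∃ cz : W →ₗ[k] (G → M), ∃ h : ∀ w, cz w ∈ lcCocycles₁ 𝒰 M,
      ∀ w, Hlc1π 𝒰 M ⟨cz w, h w⟩ = (w : Hlc 𝒰 M 1) := by
  obtain ⟨s, hs⟩ := (Hlc1π 𝒰 M).exists_rightInverse_of_surjective
    (LinearMap.range_eq_top.2 (Hlc1π_surjective 𝒰 M))
  refine ⟨(lcCocycles₁ 𝒰 M).subtype ∘ₗ s ∘ₗ W.subtype, fun w => (s w.1).2, fun w => ?_⟩
  exact LinearMap.congr_fun hs w.1

end Section

/-! ### `(G_ℚ, levelS S)` -/

section LevelS

variable {k : Type} [CommRing k] (S : Finset Nat.Primes) (N : Rep k GQ)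

/-- the "kernel" `{s | c s = 0}` of a function cocycle. -/
def cocycleKer {c : GQ → N} (hc : ∀ σ τ : GQ, c (σ * τ) = c σ + N.ρ σ (c τ)) : Subgroup GQ where
  carrier := {s | c s = 0}
  mul_mem' := by
    intro a b ha hb
    show c (a * b) = 0
    rw [hc a b, show c a = 0 from ha, show c b = 0 from hb, map_zero, add_zero]
  one_mem' := cocycle_apply_one ((cocycle_iff_mem_cocycles₁ N c).1 hc)
  inv_mem' := by
    intro a ha
    show c a⁻¹ = 0
    have h1 : c (a⁻¹ * a) = 0 := by
      rw [inv_mul_cancel]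
      exact cocycle_apply_one ((cocycle_iff_mem_cocycles₁ N c).1 hc)
    rw [hc a⁻¹ a, show c a = 0 from ha, map_zero, add_zero] at h1
    exact h1

theorem mem_cocycleKer {c : GQ → N} (hc : ∀ σ τ : GQ, c (σ * τ) = c σ + N.ρ σ (c τ)) (s : GQ) :
    s ∈ cocycleKer N hc ↔ c s = 0 := Iff.rfl

/-- **function cocycle ⟹ level-constant cocycle for `levelS S`.** A function cocycle that
vanishes on the automorphisms fixing a finite extension and on every inertia group at the primes
outside `S` is a `levelS S`-constant cocycle. -/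
theorem mem_lcCocycles₁_levelS {c : GQ → N} (hc : ∀ σ τ : GQ, c (σ * τ) = c σ + N.ρ σ (c τ))
    (hcl : ∃ L : IntermediateField ℚ Qbar, FiniteDimensional ℚ L ∧
      ∀ σ : GQ, (∀ x ∈ L, σ x = x) → c σ = 0)
    (hur : ∀ q : Nat.Primes, q ∉ S → ∀ A : ValuationSubring Qbar, A.LiesOverPrime (q : ℕ) →
      ∀ g ∈ A.inertiaSubgroupIn ℚ, c g = 0) :
    c ∈ lcCocycles₁ (levelS S) N := by
  refine ⟨(cocycle_iff_mem_cocycles₁ N c).1 hc, ?_⟩
  obtain ⟨L, hL, hLc⟩ := hcl
  have hle : L.fixingSubgroup ≤ cocycleKer N hc := by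
    intro s hs
    rw [mem_cocycleKer]
    exact hLc s fun x hx => (IntermediateField.mem_fixingSubgroup_iff L s).1 hs x hx
  have hopen : IsOpen ((cocycleKer N hc : Subgroup GQ) : Set GQ) :=
    Subgroup.isOpen_mono hle ((InfiniteGalois.isOpen_iff_finite L).2 hL)
  refine ⟨cocycleKer N hc, mem_levelS_of_isOpen_of_inertia_le S _ hopen
    (fun q hq A hA g hg => hur q hq A hA g hg), fun g s hs => ?_⟩
  rw [hc g s, (mem_cocycleKer N hc s).1 hs, map_zero, add_zero]

variable [IsDiscrete (levelS S) N]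

/-- **converse**: a `levelS S`-constant cocycle vanishes on the automorphisms fixing a finite
extension unramified outside `S`, and is right-invariant under them. -/
theorem exists_level_of_mem_lcCocycles₁ (z : lcCocycles₁ (levelS S) N) :
    ∃ L : IntermediateField ℚ Qbar, L.IsUnramifiedOutside S ∧
      (∀ σ : GQ, (∀ x ∈ L, σ x = x) → (z : GQ → N) σ = 0) ∧
      ∀ g σ : GQ, (∀ x ∈ L, σ x = x) → (z : GQ → N) (g * σ) = z.1 g := by
  obtain ⟨U, ⟨L, hL, rfl⟩, h0, hinv⟩ := exists_level_eq_zero (levelS S) z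
  refine ⟨L, hL, fun σ hσ => h0 σ ?_, fun g σ hσ => hinv g σ ?_⟩ <;>
  exact (IntermediateField.mem_fixingSubgroup_iff L σ).2 hσ

/-- a `levelS S`-constant cocycle vanishes on the inertia groups at the primes outside `S`. -/
theorem eq_zero_of_mem_inertia (z : lcCocycles₁ (levelS S) N) (q : Nat.Primes) (hq : q ∉ S)
    (A : ValuationSubring Qbar) (hA : A.LiesOverPrime (q : ℕ)) (g : GQ)
    (hg : g ∈ A.inertiaSubgroupIn ℚ) : (z : GQ → N) g = 0 := by
  obtain ⟨L, hL, h0, -⟩ := exists_level_of_mem_lcCocycles₁ S N z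
  have := hL.2 q hq A hA hg
  exact h0 g ((IntermediateField.mem_fixingSubgroup_iff L g).1 this)

/-- a `levelS S`-discrete module is unramified outside `S`. -/
theorem ρ_apply_eq_of_mem_inertia (q : Nat.Primes) (hq : q ∉ S)
    (A : ValuationSubring Qbar) (hA : A.LiesOverPrime (q : ℕ)) (g : GQ)
    (hg : g ∈ A.inertiaSubgroupIn ℚ) (x : N) : N.ρ g x = x := by
  obtain ⟨U, ⟨L, hL, rfl⟩, hfix⟩ := IsDiscrete.exists_fix (𝒰 := levelS S) x
  exact hfix g (hL.2 q hq A hA hg)

/-- **the class of a function cocycle.** -/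
def fnClass (z : lcCocycles₁ (levelS S) N) : Hlc (levelS S) N 1 := Hlc1π (levelS S) N z

theorem fnClass_surjective : Function.Surjective (fnClass S N) := Hlc1π_surjective _ _

theorem fnClass_eq_zero_iff (z : lcCocycles₁ (levelS S) N) :
    fnClass S N z = 0 ↔ ∃ x : N, ∀ σ, (z : GQ → N) σ = N.ρ σ x - x :=
  Hlc1π_eq_zero_iff_exists (levelS S) z

theorem fnClass_eq_iff (z z' : lcCocycles₁ (levelS S) N) :
    fnClass S N z = fnClass S N z' ↔
      ∃ x : N, ∀ σ, (z' : GQ → N) σ = (z : GQ → N) σ + (N.ρ σ x - x) :=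
  Hlc1π_eq_iff_exists (levelS S) z z'

end LevelS

section TWSection

variable {k : Type} [Field k] (S : Finset Nat.Primes) (N : Rep k GQ) [IsDiscrete (levelS S) N]

/-- helper1's `IsCocycle` is the explicit cocycle identity. -/
theorem isCocycle_iff (c : GQ → N) :
    IsCocycle (k := k) (M := N) N.ρ c ↔ ∀ σ τ : GQ, c (σ * τ) = c σ + N.ρ σ (c τ) := Iff.rfl

/-- **The cocycle section in the shape of `TWPrime.exists_tw_primes`**: for any subspace
`W ≤ Hlc (levelS S) N 1` (e.g. a dual Selmer group) a `k`-linear family `cz` of function cocycles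
with `hcz`, `hcl`, representing the classes of `W`, vanishing on inertia outside `S`. -/
theorem exists_tw_section (W : Submodule k (Hlc (levelS S) N 1)) :
    ∃ cz : W →ₗ[k] (GQ → N),
      (∀ w, IsCocycle (k := k) (M := N) N.ρ (cz w)) ∧
      (∀ w, ∃ L : IntermediateField ℚ Qbar, FiniteDimensional ℚ L ∧
        ∀ σ : GQ, (∀ x ∈ L, σ x = x) → cz w σ = 0) ∧
      (∀ w, ∀ q : Nat.Primes, q ∉ S → ∀ A : ValuationSubring Qbar, A.LiesOverPrime (q : ℕ) →
        ∀ g ∈ A.inertiaSubgroupIn ℚ, cz w g = 0) ∧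
      ∃ h : ∀ w, cz w ∈ lcCocycles₁ (levelS S) N,
        ∀ w, fnClass S N ⟨cz w, h w⟩ = (w : Hlc (levelS S) N 1) := by
  obtain ⟨cz, h, hcz⟩ := exists_cocycle_section N (levelS S) W
  refine ⟨cz, fun w => (cocycle_iff_mem_cocycles₁ N _).2 (h w).1, fun w => ?_, fun w => ?_,
    h, hcz⟩
  · obtain ⟨L, hL, h0, -⟩ := exists_level_of_mem_lcCocycles₁ S N ⟨cz w, h w⟩
    exact ⟨L, hL.1, h0⟩
  · exact eq_zero_of_mem_inertia S N ⟨cz w, h w⟩

end TWSection

/-- a finite-dimensional `levelS S`-discrete module factors through a finite level. -/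
theorem factorsThroughFiniteLevel_ρ {k : Type} [Field k] (S : Finset Nat.Primes) (N : Rep k GQ)
    [IsDiscrete (levelS S) N] [FiniteDimensional k N] :
    GaloisFactorsThroughFiniteLevel (M := Module.End k N) N.ρ := by
  classical
  let b := Module.finBasis k N
  choose U hU hUfix using fun i => IsDiscrete.exists_fix (𝒰 := levelS S) (b i)
  obtain ⟨V, ⟨L, hL, rfl⟩, hle, -, -⟩ :=
    (levelS S).exists_normal_le_finite Set.univ Set.finite_univ U (fun i _ => hU i)
  refine ⟨L, hL.1, fun σ hσ => ?_⟩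
  apply b.ext
  intro i
  exact hUfix i σ (hle i (Set.mem_univ i)
    ((IntermediateField.mem_fixingSubgroup_iff L σ).2 hσ))

end Fermat.Agent.GP.GW.BridgeH1
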