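/-
GATE-P / S56 [SEL] leaf S56-SEL-BRIDGE-H1 (helper73), file 1: **places of `ℚ̄` over a prime**.

* `exists_smul_eq_of_liesOverPrime` : any two valuation subrings of `ℚ̄` lying over the same prime
  `ℓ` are conjugate under `G_ℚ`;
* `padicPlace_liesOverPrime` : the place `padicPlace q` (induced by `ℚ̄ ↪ PadicAlgCl q`) lies
  over `q`; hence every place over `q` is `g • padicPlace q`
  (`exists_smul_padicPlace_eq`);
* `decompositionSubgroup_smul`, `conj_mem_decompositionSubgroup`, `isFrobeniusAt_conj` : transport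
  of decomposition groups and Frobenius lifts along conjugation;
* `mem_range_localGaloisToGlobal_of_isFrobeniusAt` : Frobenius lifts at `padicPlace q` come from
  `G_{ℚ_q}`.
-/
import Mathlib
import Fermat.Agent.Common_helper32.FrobeniusExists
import Fermat.Agent.GC.C0.Level
import Fermat.Agent.GC.Local.KrasnerDec

set_option autoImplicit false

open scoped Pointwise
open Fermat.Agent.Common_helper32

namespace Fermat.Agent.GP.GW.BridgeH1

attribute [local instance] topZb discreteTopology_Zb continuousSMul_Zb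

/-! ### conjugacy of the places over a prime -/

section Conj

variable (A A' : ValuationSubring Qb) (ℓ : ℕ) (hℓ : ℓ.Prime)

include hℓ in
/-- If the centre of `A'` is the `g`-translate of the centre of `A`, then `g • A ≤ A'`. -/
theorem smul_le_of_centerIdeal_eq (hA : A.LiesOverPrime ℓ) (g : GQ)
    (h : centerIdeal A' = g • centerIdeal A) : g • A ≤ A' := by
  intro x hx
  rw [ValuationSubring.mem_pointwise_smul_iff_inv_smul_mem] at hx
  obtain ⟨s, t, hs, ht, hsA, hst⟩ :=
    exists_integral_fraction A ℓ hℓ hA (g⁻¹ • x) hx (isAlgebraic_int _)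
  -- `g s` is a unit of `A'`
  have hs' : (g • (⟨s, hs⟩ : Zb) : Zb) ∉ centerIdeal A' := by
    rw [h, Ideal.smul_mem_pointwise_smul_iff, mem_centerIdeal]
    exact hsA
  rw [mem_centerIdeal, A'.mem_nonunits_iff, not_lt] at hs'
  have hs1 : A'.valuation (g • s) ≤ 1 :=
    (A'.valuation_le_one_iff _).mpr (isIntegral_mem_valuationSubring A' _ (g • (⟨s, hs⟩ : Zb)).2)
  have hs2 : A'.valuation (g • s) = 1 := le_antisymm hs1 hs'
  have ht1 : A'.valuation (g • t) ≤ 1 :=
    (A'.valuation_le_one_iff _).mpr (isIntegral_mem_valuationSubring A' _ (g • (⟨t, ht⟩ : Zb)).2)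
  have : g • t = g • s * x := by
    rw [← hst, smul_mul', smul_inv_smul]
  rw [this, map_mul, hs2, one_mul] at ht1
  exact (A'.valuation_le_one_iff _).1 ht1

include hℓ in
/-- **Any two places of `ℚ̄` over the same prime are conjugate.** -/
theorem exists_smul_eq_of_liesOverPrime (hA : A.LiesOverPrime ℓ) (hA' : A'.LiesOverPrime ℓ) :
    ∃ g : GQ, A' = g • A := by
  have h1 := centerIdeal_liesOver A ℓ hℓ hA
  have h2 := centerIdeal_liesOver A' ℓ hℓ hA'
  have hunder : (centerIdeal A).under ℤ = (centerIdeal A').under ℤ := by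
    rw [← h1.over, ← h2.over]
  obtain ⟨g, hg⟩ := Algebra.IsInvariant.exists_smul_of_under_eq_of_profinite
    (A := ℤ) (B := Zb) (G := GQ) (centerIdeal A) (centerIdeal A') hunder
  refine ⟨g, le_antisymm ?_ (smul_le_of_centerIdeal_eq A A' ℓ hℓ hA g hg)⟩
  -- the reverse inclusion by symmetry
  have hg' : centerIdeal A = g⁻¹ • centerIdeal A' := by rw [hg, inv_smul_smul]
  have h3 := smul_le_of_centerIdeal_eq A' A ℓ hℓ hA' g⁻¹ hg'
  intro x hx
  rw [ValuationSubring.mem_pointwise_smul_iff_inv_smul_mem]
  exact h3 (ValuationSubring.smul_mem_pointwise_smul _ _ _ hx)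

end Conj

/-! ### the place `padicPlace q` -/

section Padic

open Fermat.Agent.GC.Local.KR

variable (q : ℕ) [Fact q.Prime]

/-- `padicPlace q` lies over `q`. -/
theorem padicPlace_liesOverPrime : (padicPlace q).LiesOverPrime q := by
  unfold ValuationSubring.LiesOverPrime
  have hq : (q : ℝ) > 1 := by exact_mod_cast (Fact.out : q.Prime).one_lt
  have hq0 : (q : Qb) ≠ 0 := by exact_mod_cast (Fact.out : q.Prime).ne_zero
  rw [ValuationSubring.mem_nonunits_iff_or]
  refine Or.inr ?_
  rw [mem_padicPlace_iff_norm, map_inv₀, map_natCast, norm_inv, norm_natCast_self, inv_inv]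
  exact not_le.2 hq

/-- **Every place of `ℚ̄` over `q` is a `G_ℚ`-conjugate of `padicPlace q`.** -/
theorem exists_smul_padicPlace_eq (A : ValuationSubring Qb) (hA : A.LiesOverPrime q) :
    ∃ g : GQ, A = g • padicPlace q :=
  exists_smul_eq_of_liesOverPrime (padicPlace q) A q Fact.out (padicPlace_liesOverPrime q) hA

end Padic

/-! ### transport along conjugation -/

section Transport

variable (A : ValuationSubring Qb)

theorem conj_mem_decompositionSubgroup (g : GQ) {σ : GQ}
    (hσ : σ ∈ A.decompositionSubgroup ℚ) : g * σ * g⁻¹ ∈ (g • A).decompositionSubgroup ℚ := by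
  rw [MulAction.mem_stabilizer_iff] at hσ ⊢
  rw [← mul_smul, inv_mul_cancel_right, mul_smul, hσ]

theorem mem_decompositionSubgroup_smul_iff (g σ : GQ) :
    σ ∈ (g • A).decompositionSubgroup ℚ ↔ g⁻¹ * σ * g ∈ A.decompositionSubgroup ℚ := by
  constructor
  · intro h
    have := conj_mem_decompositionSubgroup (g • A) g⁻¹ h
    rwa [inv_smul_smul, inv_inv] at this
  · intro h
    have := conj_mem_decompositionSubgroup A g h
    have e : g * (g⁻¹ * σ * g) * g⁻¹ = σ := by group
    rwa [e] at this

theorem mem_inertiaSubgroupIn_smul_iff (g σ : GQ) :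
    σ ∈ (g • A).inertiaSubgroupIn ℚ ↔ g⁻¹ * σ * g ∈ A.inertiaSubgroupIn ℚ := by
  constructor
  · intro h
    have := Fermat.Agent.GC.C0.conj_mem_inertiaSubgroupIn g⁻¹ h
    rwa [inv_smul_smul, inv_inv] at this
  · intro h
    have := Fermat.Agent.GC.C0.conj_mem_inertiaSubgroupIn g h
    have e : g * (g⁻¹ * σ * g) * g⁻¹ = σ := by group
    rwa [e] at this

end Transport

end Fermat.Agent.GP.GW.BridgeH1
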