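/-
GATE-P / S56 [SEL] leaf S56-SEL-BRIDGE-H1 (helper73), file 3: **the local function ↔ `Hlc`
dictionary at a prime `q`.**

`r = localGaloisToGlobal q : G_{ℚ_q} → G_ℚ` is injective with image the FROZEN decomposition group
`D = (padicPlace q).decompositionSubgroup ℚ`.  For `N : Rep k G_ℚ`, `N_q = Rep.res r N`, a function
`c : G_ℚ → N` is a *local cocycle at `q`* (`IsLocCocycle q N c`) if it satisfies the cocycle
identity on `D` and is right-invariant, on `D`, under the elements of `D` fixing some finite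
extension `L/ℚ`.  Only the values of `c` on `D` matter.

* `locClass q N c hc : Hlc (levelQ q) N_q 1` — the class of `c ∘ r`;
* `locClass_surjective` — every local class comes from a function on `G_ℚ`;
* `locClass_eq_zero_iff` — `= 0 ⟺ ∃ x, ∀ σ ∈ D, c σ = σ x − x`;
  `locClass_eq_iff` — equal classes ⟺ differ on `D` by a coboundary;
* `locClass_add`, `locClass_smul`;
* `isLocCocycle_of_global` — a level-constant global cocycle (any `levelS S`) is a local cocycle
  at every `q`;
* `locRes_fnClass` — **compatibility with the localisation map of `locDataQ S`**: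
  `locRes (locDataQ S) N 1 (fnClass S N z) v = locClass v N z`;
* `H0` : `Hlc (levelQ q) N_q 0 ≃ {x | ∀ σ ∈ D, σ x = x}` (`locH0Equiv`).
-/
import Mathlib
import Fermat.Agent.GC.PT.LocDataQ
import Fermat.Agent.GP.GW.BridgeH1.Global
import Fermat.Agent.GP.GW.BridgeH1.Places

set_option autoImplicit false

open CategoryTheory groupCohomology
open Fermat.Agent.GC.Prof Fermat.Agent.GC.Prof.Cone Fermat.Agent.GC.C0 Fermat.Agent.GC.Places
  Fermat.Agent.GC.Local.KR Fermat.Agent.GC.PT.LocDataQ

noncomputable section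

namespace Fermat.Agent.GP.GW.BridgeH1

variable {k : Type} [CommRing k] (q : ℕ) [Fact q.Prime] (N : Rep k GQ)

/-- the local module at `q`. -/
abbrev resQ : Rep k (Gq q) := Rep.res (localGaloisToGlobal q) N

/-- the frozen decomposition group at `padicPlace q`. -/
abbrev decQ : Subgroup GQ := (padicPlace q).decompositionSubgroup ℚ

theorem localGaloisToGlobal_mem_decQ (τ : Gq q) : localGaloisToGlobal q τ ∈ decQ q :=
  localGaloisToGlobal_mem_decompositionSubgroup q τ

theorem exists_of_mem_decQ {σ : GQ} (hσ : σ ∈ decQ q) : ∃ τ : Gq q, localGaloisToGlobal q τ = σ :=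
  (mem_decompositionSubgroup_iff q σ).1 hσ

theorem resQ_ρ_apply (τ : Gq q) (x : N) :
    (resQ q N).ρ τ x = N.ρ (localGaloisToGlobal q τ) x := rfl

/-- **local cocycles at `q` in function form on `G_ℚ`.** -/
structure IsLocCocycle (c : GQ → N) : Prop where
  cocycle : ∀ σ ∈ decQ q, ∀ τ ∈ decQ q, c (σ * τ) = c σ + N.ρ σ (c τ)
  level : ∃ L : IntermediateField ℚ Qbar, FiniteDimensional ℚ L ∧
    ∀ g ∈ decQ q, ∀ s ∈ decQ q, (∀ x ∈ L, s x = x) → c (g * s) = c g

variable {q N}

theorem IsLocCocycle.add {c c' : GQ → N} (h : IsLocCocycle q N c) (h' : IsLocCocycle q N c') :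
    IsLocCocycle q N (c + c') := by
  refine ⟨fun σ hσ τ hτ => ?_, ?_⟩
  · simp only [Pi.add_apply, h.cocycle σ hσ τ hτ, h'.cocycle σ hσ τ hτ, map_add]
    abel
  · obtain ⟨L, hL, hl⟩ := h.level
    obtain ⟨L', hL', hl'⟩ := h'.level
    refine ⟨L ⊔ L', inferInstance, fun g hg s hs hfix => ?_⟩
    simp only [Pi.add_apply]
    rw [hl g hg s hs fun x hx => hfix x ((le_sup_left : L ≤ L ⊔ L') hx),
      hl' g hg s hs fun x hx => hfix x ((le_sup_right : L' ≤ L ⊔ L') hx)]

theorem IsLocCocycle.smul {c : GQ → N} (a : k) (h : IsLocCocycle q N c) :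
    IsLocCocycle q N (a • c) := by
  refine ⟨fun σ hσ τ hτ => ?_, ?_⟩
  · simp only [Pi.smul_apply, h.cocycle σ hσ τ hτ, smul_add, map_smul]
  · obtain ⟨L, hL, hl⟩ := h.level
    refine ⟨L, hL, fun g hg s hs hfix => ?_⟩
    simp only [Pi.smul_apply]
    rw [hl g hg s hs hfix]

theorem isLocCocycle_zero : IsLocCocycle q N (0 : GQ → N) :=
  ⟨fun _ _ _ _ => by simp, ⊥, inferInstance, fun _ _ _ _ _ => rfl⟩

/-- the pulled-back function is a level-constant cocycle of `G_{ℚ_q}`. -/
theorem IsLocCocycle.comp_mem {c : GQ → N} (h : IsLocCocycle q N c) :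
    (fun τ : Gq q => c (localGaloisToGlobal q τ)) ∈ lcCocycles₁ (levelQ q) (resQ q N) := by
  refine ⟨(cocycle_iff_mem_cocycles₁ (resQ q N) _).1 fun g g' => ?_, ?_⟩
  · rw [map_mul, h.cocycle _ (localGaloisToGlobal_mem_decQ q g) _
      (localGaloisToGlobal_mem_decQ q g')]
    rfl
  · obtain ⟨L, hL, hl⟩ := h.level
    refine ⟨(localLevel q L).fixingSubgroup,
      Fermat.Agent.GC.Local.Abs.fixingSubgroup_mem_galLevels _, fun g s hs => ?_⟩
    show c (localGaloisToGlobal q (g * s)) = c (localGaloisToGlobal q g)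
    rw [map_mul]
    refine hl _ (localGaloisToGlobal_mem_decQ q g) _ (localGaloisToGlobal_mem_decQ q s) ?_
    have := (mem_fixingSubgroup_localLevel_iff q L s).2 hs
    exact (IntermediateField.mem_fixingSubgroup_iff L _).1 this

variable (q N)
variable [IsDiscrete (levelQ q) (resQ q N)]

/-- **the local class at `q` of a function `G_ℚ → N`.** -/
def locClass (c : GQ → N) (hc : IsLocCocycle q N c) : Hlc (levelQ q) (resQ q N) 1 :=
  Hlc1π (levelQ q) (resQ q N) ⟨_, hc.comp_mem⟩

theorem locClass_congr {c c' : GQ → N} (hc : IsLocCocycle q N c) (hc' : IsLocCocycle q N c')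
    (h : ∀ σ ∈ decQ q, c σ = c' σ) : locClass q N c hc = locClass q N c' hc' := by
  unfold locClass
  congr 1
  apply Subtype.ext
  funext τ
  exact h _ (localGaloisToGlobal_mem_decQ q τ)

/-- **`locClass = 0` iff the function is a coboundary on the decomposition group.** -/
theorem locClass_eq_zero_iff {c : GQ → N} (hc : IsLocCocycle q N c) :
    locClass q N c hc = 0 ↔ ∃ x : N, ∀ σ ∈ decQ q, c σ = N.ρ σ x - x := by
  unfold locClass
  rw [Hlc1π_eq_zero_iff_exists]
  constructor
  · rintro ⟨x, hx⟩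
    refine ⟨x, fun σ hσ => ?_⟩
    obtain ⟨τ, rfl⟩ := exists_of_mem_decQ q hσ
    exact hx τ
  · rintro ⟨x, hx⟩
    exact ⟨x, fun τ => hx _ (localGaloisToGlobal_mem_decQ q τ)⟩

theorem locClass_add {c c' : GQ → N} (hc : IsLocCocycle q N c) (hc' : IsLocCocycle q N c') :
    locClass q N (c + c') (hc.add hc') = locClass q N c hc + locClass q N c' hc' := by
  unfold locClass
  rw [← map_add]
  rfl

theorem locClass_smul (a : k) {c : GQ → N} (hc : IsLocCocycle q N c) :
    locClass q N (a • c) (hc.smul a) = a • locClass q N c hc := by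
  unfold locClass
  rw [← map_smul]
  rfl

theorem locClass_zero : locClass q N 0 isLocCocycle_zero = 0 :=
  (locClass_eq_zero_iff q N _).2 ⟨0, fun _ _ => by simp⟩

/-- **equal local classes ⟺ the functions differ by a coboundary on `D`.** -/
theorem locClass_eq_iff {c c' : GQ → N} (hc : IsLocCocycle q N c) (hc' : IsLocCocycle q N c') :
    locClass q N c hc = locClass q N c' hc' ↔
      ∃ x : N, ∀ σ ∈ decQ q, c' σ = c σ + (N.ρ σ x - x) := by
  unfold locClass
  rw [Hlc1π_eq_iff_exists]
  constructor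
  · rintro ⟨x, hx⟩
    refine ⟨x, fun σ hσ => ?_⟩
    obtain ⟨τ, rfl⟩ := exists_of_mem_decQ q hσ
    exact hx τ
  · rintro ⟨x, hx⟩
    exact ⟨x, fun τ => hx _ (localGaloisToGlobal_mem_decQ q τ)⟩

/-- **every class of `Hlc (levelQ q) N_q 1` is the local class of a function on `G_ℚ`.** -/
theorem locClass_surjective (y : Hlc (levelQ q) (resQ q N) 1) :
    ∃ (c : GQ → N) (hc : IsLocCocycle q N c), locClass q N c hc = y := by
  classical
  obtain ⟨z, rfl⟩ := Hlc1π_surjective (levelQ q) (resQ q N) y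
  let c : GQ → N := fun σ =>
    if h : ∃ τ : Gq q, localGaloisToGlobal q τ = σ then (z : Gq q → N) (Classical.choose h) else 0
  have hcr : ∀ τ : Gq q, c (localGaloisToGlobal q τ) = (z : Gq q → N) τ := by
    intro τ
    have h : ∃ τ' : Gq q, localGaloisToGlobal q τ' = localGaloisToGlobal q τ := ⟨τ, rfl⟩
    simp only [c, dif_pos h]
    exact congrArg (z : Gq q → N) (localGaloisToGlobal_injective q (Classical.choose_spec h))
  have hcoc : ∀ g g' : Gq q, (z : Gq q → N) (g * g') =
      (z : Gq q → N) g + (resQ q N).ρ g ((z : Gq q → N) g') :=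
    (cocycle_iff_mem_cocycles₁ (resQ q N) _).2 z.2.1
  have hc : IsLocCocycle q N c := by
    refine ⟨fun σ hσ τ hτ => ?_, ?_⟩
    · obtain ⟨s, rfl⟩ := exists_of_mem_decQ q hσ
      obtain ⟨t, rfl⟩ := exists_of_mem_decQ q hτ
      rw [← map_mul, hcr, hcr, hcr, hcoc]
      rfl
    · obtain ⟨U, ⟨E, hE, rfl⟩, hU⟩ := z.2.2
      have := hE
      obtain ⟨L, hL, -, hle⟩ := exists_le_localLevel q E
      refine ⟨L, hL, fun g hg s hs hfix => ?_⟩
      obtain ⟨g', rfl⟩ := exists_of_mem_decQ q hg
      obtain ⟨s', rfl⟩ := exists_of_mem_decQ q hs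
      rw [← map_mul, hcr, hcr]
      refine hU g' s' ?_
      have h1 : s' ∈ (localLevel q L).fixingSubgroup :=
        (mem_fixingSubgroup_localLevel_iff q L s').1
          ((IntermediateField.mem_fixingSubgroup_iff L _).2 hfix)
      exact IntermediateField.fixingSubgroup_antitone hle h1
  refine ⟨c, hc, ?_⟩
  unfold locClass
  congr 1
  apply Subtype.ext
  funext τ
  exact hcr τ

omit [IsDiscrete (levelQ q) (resQ q N)] in
/-- `H⁰` of the local group is the module of `D`-invariants. -/
theorem mem_invariants_resQ_iff (x : N) :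
    x ∈ (resQ q N).ρ.invariants ↔ ∀ σ ∈ decQ q, N.ρ σ x = x := by
  rw [Representation.mem_invariants]
  constructor
  · intro h σ hσ
    obtain ⟨τ, rfl⟩ := exists_of_mem_decQ q hσ
    exact h τ
  · intro h τ
    exact h _ (localGaloisToGlobal_mem_decQ q τ)

/-- `Hlc (levelQ q) N_q 0` is the module of invariants of the local group. -/
def locH0Equiv : Hlc (levelQ q) (resQ q N) 0 ≃ₗ[k] (resQ q N).ρ.invariants :=
  Hlc0Equiv (levelQ q) (resQ q N)

end Fermat.Agent.GP.GW.BridgeH1
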