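/-
GATE-P / S56 [SEL] leaf S56-SEL-BRIDGE-H1 (helper73), file 4: **global ↔ local compatibility**.

* `isLocCocycle_of_global` : a `levelS S`-constant global function cocycle is a local cocycle at
  every prime `q`;
* `locRes_fnClass` : `locRes (locDataQ S) N 1 (fnClass S N z) v = locClass v N z` for `v ∈ S`;
* `isContHom_levelS_of_subset`, `isDiscrete_levelS_of_subset`, `inflS`, `inflS_fnClass`
  (inflation `Hlc (levelS S) N 1 → Hlc (levelS S') N 1`, `S ⊆ S'`, is the identity on function
  cocycles), `locRes_inflS` (localisation at `v ∈ S` commutes with inflation);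
* `coboundary_on_conj` : a global cocycle which is a coboundary on `D_A` is a coboundary on
  `D_{g • A}`;
* `exists_coboundary_of_locClass_eq_zero` : `locClass q N z = 0` ⟹ for EVERY place `A` over `q`
  the cocycle is a coboundary on `A.decompositionSubgroup ℚ`;
* **`mem_locKer_of_locClass_eq_zero`** : … hence `w ∈ TWPrime.locKer N.ρ cz q`.
-/
import Mathlib
import Fermat.Agent.GP.GW.BridgeH1.Local

set_option autoImplicit false

open scoped Pointwise
open CategoryTheory groupCohomology
open Fermat.Agent.GC.Prof Fermat.Agent.GC.Prof.Cone Fermat.Agent.GC.C0 Fermat.Agent.GC.Places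
  Fermat.Agent.GC.Local.KR Fermat.Agent.GC.PT.LocDataQ Fermat.Agent.GP.TW.TWPrime

noncomputable section

namespace Fermat.Agent.GP.GW.BridgeH1

/-! ### global cocycles are local cocycles -/

section Global

variable {k : Type} [CommRing k] (S : Finset Nat.Primes) (N : Rep k GQ) [IsDiscrete (levelS S) N]

/-- a `levelS S`-constant global cocycle is a local cocycle at every prime. -/
theorem isLocCocycle_of_global (z : lcCocycles₁ (levelS S) N) (q : ℕ) [Fact q.Prime] :
    IsLocCocycle q N (z : GQ → N) := by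
  have hcoc := (cocycle_iff_mem_cocycles₁ N _).2 z.2.1
  obtain ⟨L, hL, -, hinv⟩ := exists_level_of_mem_lcCocycles₁ S N z
  exact ⟨fun σ _ τ _ => hcoc σ τ, L, hL.1, fun g _ s _ hs => hinv g s hs⟩

end Global

/-- the instance of discreteness of the local module. -/
theorem isDiscrete_resQ {k : Type} [CommRing k] (S : Finset Nat.Primes) (N : Rep k GQ)
    [IsDiscrete (levelS S) N] (q : ℕ) [Fact q.Prime] : IsDiscrete (levelQ q) (resQ q N) :=
  isDiscrete_res_localGaloisToGlobal S q N

section LocRes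

variable {k : Type} [CommRing k] (S : Finset Nat.Primes) (N : Rep k GQ) [IsDiscrete (levelS S) N]

/-- the residue characteristic of a member of `S` is prime. -/
theorem fact_prime_of_mem (v : ↥S) : Fact (((v : Nat.Primes) : ℕ).Prime) := ⟨v.1.2⟩

/-- **Compatibility with the localisation map of `locDataQ S`.** -/
theorem locRes_fnClass (v : ↥S) (z : lcCocycles₁ (levelS S) N)
    [hF : Fact (((v : Nat.Primes) : ℕ).Prime)]
    [IsDiscrete (levelQ ((v : Nat.Primes) : ℕ)) (resQ ((v : Nat.Primes) : ℕ) N)] :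
    locRes (locDataQ S) N 1 (fnClass S N z) v =
      locClass ((v : Nat.Primes) : ℕ) N (z : GQ → N)
        (isLocCocycle_of_global S N z ((v : Nat.Primes) : ℕ)) := by
  rw [locRes_apply]
  unfold HlcRes fnClass locClass
  exact HlcPull_Hlc1π ((locDataQ S).cont v) (𝟙 _) z

end LocRes

/-! ### inflation `levelS S → levelS S'` -/

section Infl

variable {k : Type} [CommRing k] {S S' : Finset Nat.Primes} (hSS' : S ⊆ S') (N : Rep k GQ)

include hSS' in
theorem isContHom_levelS_of_subset :
    IsContHom (levelS S') (levelS S) (MonoidHom.id GQ) := by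
  apply IsContHom.of_subset
  rintro U ⟨F, hF, rfl⟩
  exact ⟨F, hF.mono hSS', rfl⟩

include hSS' in
theorem isDiscrete_levelS_of_subset [IsDiscrete (levelS S) N] : IsDiscrete (levelS S') N :=
  IsDiscrete.res (isContHom_levelS_of_subset hSS') N

variable [IsDiscrete (levelS S) N] [IsDiscrete (levelS S') N]

/-- **inflation** `Hlc (levelS S) N n → Hlc (levelS S') N n` for `S ⊆ S'`. -/
def inflS (n : ℕ) : Hlc (levelS S) N n →ₗ[k] Hlc (levelS S') N n :=
  (HlcPull (isContHom_levelS_of_subset hSS') (A := N) (B := N) (𝟙 N) n).hom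

omit [IsDiscrete (levelS S) N] [IsDiscrete (levelS S') N] in
include hSS' in
theorem mem_lcCocycles₁_of_subset (z : lcCocycles₁ (levelS S) N) :
    (z : GQ → N) ∈ lcCocycles₁ (levelS S') N := by
  refine ⟨z.2.1, ?_⟩
  obtain ⟨U, ⟨F, hF, rfl⟩, h⟩ := z.2.2
  exact ⟨F.fixingSubgroup, ⟨F, hF.mono hSS', rfl⟩, h⟩

/-- inflation is the identity on function cocycles. -/
theorem inflS_fnClass (z : lcCocycles₁ (levelS S) N) :
    inflS hSS' N 1 (fnClass S N z) = fnClass S' N ⟨z, mem_lcCocycles₁_of_subset hSS' N z⟩ := by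
  unfold inflS fnClass
  exact HlcPull_Hlc1π (isContHom_levelS_of_subset hSS') (A := N) (B := N) (𝟙 N) z

/-- localisation at `v ∈ S` commutes with inflation. -/
theorem locRes_inflS (v : ↥S) (x : Hlc (levelS S) N 1)
    [hF : Fact (((v : Nat.Primes) : ℕ).Prime)]
    [IsDiscrete (levelQ ((v : Nat.Primes) : ℕ)) (resQ ((v : Nat.Primes) : ℕ) N)] :
    locRes (locDataQ S') N 1 (inflS hSS' N 1 x) ⟨v.1, hSS' v.2⟩ =
      locRes (locDataQ S) N 1 x v := by
  obtain ⟨z, rfl⟩ := fnClass_surjective S N x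
  rw [inflS_fnClass, locRes_fnClass S N v z]
  exact locRes_fnClass S' N ⟨v.1, hSS' v.2⟩ ⟨z, mem_lcCocycles₁_of_subset hSS' N z⟩

end Infl

/-! ### local triviality at all places over `q` -/

section Conj

variable {k : Type} [CommRing k] (N : Rep k GQ)

/-- **transport of "coboundary on a decomposition group" along conjugation**: if a global
function cocycle `c` satisfies `c σ = σ x − x` on `D_A`, then `c σ = σ x' − x'` on `D_{g • A}` with
`x' = g x − c g`. -/
theorem coboundary_on_conj {c : GQ → N} (hc : ∀ σ τ : GQ, c (σ * τ) = c σ + N.ρ σ (c τ))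
    (A : ValuationSubring Qbar) (g : GQ) (x : N)
    (hx : ∀ σ ∈ A.decompositionSubgroup ℚ, c σ = N.ρ σ x - x) :
    ∀ σ ∈ (g • A).decompositionSubgroup ℚ, c σ = N.ρ σ (N.ρ g x - c g) - (N.ρ g x - c g) := by
  intro σ hσ
  have hσ' := (mem_decompositionSubgroup_smul_iff A g σ).1 hσ
  have h1 := hx _ hσ'
  -- `σ g = g (g⁻¹ σ g)`
  have e : σ * g = g * (g⁻¹ * σ * g) := by group
  have h2 : c (σ * g) = c σ + N.ρ σ (c g) := hc σ g
  have h3 : c (g * (g⁻¹ * σ * g)) = c g + N.ρ g (c (g⁻¹ * σ * g)) := hc g _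
  rw [e, h3, h1] at h2
  have h4 : N.ρ g (N.ρ (g⁻¹ * σ * g) x) = N.ρ σ (N.ρ g x) := by
    rw [← Module.End.mul_apply, ← map_mul, ← Module.End.mul_apply, ← map_mul]
    congr 2
    group
  rw [map_sub, h4] at h2
  rw [map_sub]
  -- `c σ = c g + σ g x − g x − σ c g`
  have h5 : c σ = c g + (N.ρ σ (N.ρ g x) - N.ρ g x) - N.ρ σ (c g) := by
    rw [h2]; abel
  rw [h5]; abel

end Conj

section LocKer

variable {k : Type} [CommRing k] (q : ℕ) [Fact q.Prime] (N : Rep k GQ)
  [IsDiscrete (levelQ q) (resQ q N)]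

/-- **`locClass q N c = 0` ⟹ `c` is a coboundary on the decomposition group of EVERY place over
`q`.** -/
theorem exists_coboundary_of_locClass_eq_zero {c : GQ → N}
    (hc : ∀ σ τ : GQ, c (σ * τ) = c σ + N.ρ σ (c τ)) (hloc : IsLocCocycle q N c)
    (h0 : locClass q N c hloc = 0) (A : ValuationSubring Qbar) (hA : A.LiesOverPrime q) :
    ∃ x : N, ∀ σ ∈ A.decompositionSubgroup ℚ, c σ = N.ρ σ x - x := by
  obtain ⟨x, hx⟩ := (locClass_eq_zero_iff q N hloc).1 h0
  obtain ⟨g, rfl⟩ := exists_smul_padicPlace_eq q A hA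
  exact ⟨_, coboundary_on_conj N hc (padicPlace q) g x hx⟩

/-- the converse at the place `padicPlace q`. -/
theorem locClass_eq_zero_of_coboundary {c : GQ → N} (hloc : IsLocCocycle q N c)
    (h : ∃ x : N, ∀ σ ∈ (padicPlace q).decompositionSubgroup ℚ, c σ = N.ρ σ x - x) :
    locClass q N c hloc = 0 :=
  (locClass_eq_zero_iff q N hloc).2 h

end LocKer

section LocKerTW

variable {k : Type} [Field k] (q : ℕ) [Fact q.Prime] (N : Rep k GQ)
  [IsDiscrete (levelQ q) (resQ q N)]
  {W : Type*} [AddCommGroup W] [Module k W]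

/-- **`loc_q = 0 ⟹ locKer`** (the binder shape of `TWPrime.exists_tw_primes`): if the function
cocycle `cz w` has trivial local class at `q` then `w ∈ locKer N.ρ cz q`, i.e. `cz w τ ∈ (τ − 1) N`
for every Frobenius lift `τ` at every place over `q`. -/
theorem mem_locKer_of_locClass_eq_zero (cz : W →ₗ[k] (GQ → N)) (w : W)
    (hc : IsCocycle (k := k) (M := N) N.ρ (cz w)) (hloc : IsLocCocycle q N (cz w))
    (h0 : locClass q N (cz w) hloc = 0) : w ∈ locKer (k := k) (M := N) N.ρ cz q := by
  intro A τ hA hτ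
  obtain ⟨x, hx⟩ := exists_coboundary_of_locClass_eq_zero q N hc hloc h0 A hA
  refine ⟨x, ?_⟩
  rw [LinearMap.sub_apply, Module.End.one_apply]
  exact (hx τ hτ.mem_decompositionSubgroup).symm

end LocKerTW

end Fermat.Agent.GP.GW.BridgeH1
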